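/-
S55 engine E1 — leaf ALG10E (`ALG10EdgeSpec`): the transition maps `tr` commute with the
connecting map `δ'` and with `incl_*`, hence with the edge map.   (helper600, subtask 480)
-/
import Fermat.Agent.S55.E1.SpecAlg3
import Fermat.Agent.S55.H783.Natural

set_option autoImplicit false

open CategoryTheory CategoryTheory.Limits

namespace Fermat.Agent.S55.E1.H600

noncomputable section

section Generic

variable {k G G' : Type} [CommRing k] [Group G] [Group G'] (π : G' →* G)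

/-- A morphism of short complexes `S' ⟶ res_π S` (given elementwise) and `ι : res_π X ⟶ X'`
induce a morphism of short complexes `res_π (ihomImageSC S X) ⟶ ihomImageSC S' X'`. -/
def ihomImageSCHom (S : ShortComplex (Rep.{0} k G)) (S' : ShortComplex (Rep.{0} k G'))
    (t₁ : S'.X₁ ⟶ Rep.res π S.X₁) (t₂ : S'.X₂ ⟶ Rep.res π S.X₂) (t₃ : S'.X₃ ⟶ Rep.res π S.X₃)
    (h₁₂ : ∀ x : S'.X₁.V, S.f.hom (t₁.hom x) = t₂.hom (S'.f.hom x))
    (h₂₃ : ∀ x : S'.X₂.V, S.g.hom (t₂.hom x) = t₃.hom (S'.g.hom x))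
    {X : Rep.{0} k G} {X' : Rep.{0} k G'} (ι : Rep.res π X ⟶ X') :
    (ihomImageSC S X).map (Rep.resFunctor π) ⟶ ihomImageSC S' X' where
  τ₁ := trIhom π t₃ ι
  τ₂ := trIhom π t₂ ι
  τ₃ := trImage π S.f S'.f t₁ t₂ ι h₁₂
  comm₁₂ := by
    apply Rep.hom_ext
    apply DFunLike.ext
    intro (φ : S.X₃.V →ₗ[k] X.V)
    apply LinearMap.ext
    intro x
    change ι.hom (φ (t₃.hom (S'.g.hom x))) = ι.hom (φ (S.g.hom (t₂.hom x)))
    rw [h₂₃]
  comm₂₃ := by
    apply Rep.hom_ext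
    apply DFunLike.ext
    intro (ψ : S.X₂.V →ₗ[k] X.V)
    apply Subtype.ext
    apply LinearMap.ext
    intro r
    change ι.hom (ψ (t₂.hom (S'.f.hom r))) = ι.hom (ψ (S.f.hom (t₁.hom r)))
    rw [h₁₂]

/-- `incl ∘ tr = tr ∘ incl` for the image submodules. -/
lemma trImage_incl {A B X : Rep.{0} k G} {A' B' X' : Rep.{0} k G'}
    (a : A ⟶ B) (a' : A' ⟶ B') (tA : A' ⟶ Rep.res π A) (tB : B' ⟶ Rep.res π B)
    (ι : Rep.res π X ⟶ X') (hsq : ∀ x : A'.V, a.hom (tA.hom x) = tB.hom (a'.hom x)) :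
    trImage π a a' tA tB ι hsq ≫ ihomImageIncl a' X' =
      (Rep.resFunctor π).map (ihomImageIncl a X) ≫ trIhom π tA ι := by
  apply Rep.hom_ext
  apply DFunLike.ext
  intro φ
  rfl

end Generic

variable {G G' : Type} [Group G] [Group G'] (π : G' →* G)
variable {N : Rep.{0} ℤ G} {N' : Rep.{0} ℤ G'} (ν : N' ⟶ Rep.res π N)
variable {X : Rep.{0} ℤ G} {X' : Rep.{0} ℤ G'} (ι : Rep.res π X ⟶ X')

/-- The morphism of short complexes `res_π (edgeSC N X) ⟶ edgeSC N' X'` given by the three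
transition maps `φ ↦ ι ∘ φ ∘ ν`, `φ ↦ ι ∘ φ ∘ ρ`, `φ ↦ ι ∘ φ ∘ ρ|_{R'}`. -/
def edgeSCHom : (edgeSC N X).map (Rep.resFunctor π) ⟶ edgeSC N' X' :=
  ihomImageSCHom π (stdSC N) (stdSC N') (trR π ν) (trP π ν) ν
    (fun r => trR_stdι_apply π ν r) (fun x => trP_stdε_apply π ν x) ι

/-- `tr` commutes with the connecting map `δ'`. -/
theorem edgeδ_tr (b : groupCohomology (edgeB N X) 1) :
    edgeδ N' X' ((groupCohomology.map π (trEdgeB π ν ι) 1).hom b) =
      (groupCohomology.map π (trIhom π ν ι) 2).hom (edgeδ N X b) := by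
  have h := H783.δ_naturality_map π (edgeSC_shortExact N X) (edgeSC_shortExact N' X')
    (edgeSCHom π ν ι) 1 2 rfl
  have h' := congrArg (fun f => f.hom b) h
  exact h'.symm

/-- `tr` commutes with `incl_*`. -/
theorem edgeIncl_tr (b : groupCohomology (edgeB N X) 1) :
    edgeIncl N' X' ((groupCohomology.map π (trEdgeB π ν ι) 1).hom b) =
      trE2 π ν ι (edgeIncl N X b) := by
  have h1 : groupCohomology.map π (trEdgeB π ν ι) 1 ≫
      groupCohomology.map (MonoidHom.id G') (ihomImageIncl (stdι N') X') 1 =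
      groupCohomology.map (MonoidHom.id G) (ihomImageIncl (stdι N) X) 1 ≫
        groupCohomology.map π (trIhom π (trR π ν) ι) 1 := by
    rw [← groupCohomology.map_comp, ← groupCohomology.map_comp]
    exact groupCohomology.map_congr rfl rfl 1
  have h' := congrArg (fun f => f.hom b) h1
  exact h'

theorem alg10Edge : ALG10EdgeSpec := by
  intro G G' _ _ π N N' ν X X' ι b
  exact ⟨edgeδ_tr π ν ι b, edgeIncl_tr π ν ι b⟩

end

end Fermat.Agent.S55.E1.H600
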